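import Fermat.Prelude.Def_EllipticCurve_FrobeniusTrace
import Fermat.Prelude.Def_ExtCitation_KummerBridge
import Mathlib.RingTheory.Polynomial.Cyclotomic.Roots
import Mathlib.FieldTheory.IntermediateField.Adjoin.Basic
import Mathlib.FieldTheory.Finiteness
import Mathlib.RingTheory.Algebraic.Integral

/-!
Action of inertia and Frobenius elements at a place of `AlgebraicClosure ℚ` over `ℓ` on roots of
unity of order prime to `ℓ`.
-/

set_option autoImplicit false

namespace Fermat.Agent.CycChar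

open ValuationSubring

section General

variable {K L : Type*} [Field K] [Field L] [Algebra K L]

/-- an inertia element acts trivially modulo the maximal ideal. -/
theorem sub_mem_nonunits_of_mem_inertia {A : ValuationSubring L} {σ : L ≃ₐ[K] L}
    (hσ : σ ∈ A.inertiaSubgroupIn K) {x : L} (hx : x ∈ A) : σ x - x ∈ A.nonunits := by
  obtain ⟨τ, hτ, rfl⟩ := hσ
  have h1 : (MulSemiringAction.toRingAut (A.decompositionSubgroup K) (IsLocalRing.ResidueField A)) τ
      = 1 := hτ
  have h2 := congrArg (fun f => f (IsLocalRing.residue A ⟨x, hx⟩)) h1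
  have h3 : τ • (IsLocalRing.residue A ⟨x, hx⟩) = IsLocalRing.residue A ⟨x, hx⟩ := h2
  have h4 : τ • (IsLocalRing.residue A ⟨x, hx⟩) = IsLocalRing.residue A (τ • ⟨x, hx⟩) := rfl
  rw [h4, ← sub_eq_zero, ← map_sub, IsLocalRing.residue_eq_zero_iff] at h3
  have h5 := A.coe_mem_nonunits_iff.mpr h3
  exact h5

/-- an element of the decomposition group maps `A` to `A`. -/
theorem apply_mem_of_mem_decomposition {A : ValuationSubring L} {σ : L ≃ₐ[K] L}
    (hσ : σ ∈ A.decompositionSubgroup K) {x : L} (hx : x ∈ A) : σ x ∈ A := by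
  have h := ((⟨σ, hσ⟩ : A.decompositionSubgroup K) • (⟨x, hx⟩ : A)).2
  exact h

/-- a Frobenius element acts as the `q`-power map modulo the maximal ideal. -/
theorem sub_pow_mem_nonunits_of_isFrobeniusAt {A : ValuationSubring L} {σ : L ≃ₐ[K] L} {q : ℕ}
    (hσ : A.IsFrobeniusAt σ q) {x : L} (hx : x ∈ A) : σ x - x ^ q ∈ A.nonunits := by
  obtain ⟨hD, hF⟩ := hσ
  have h3 := hF (IsLocalRing.residue A ⟨x, hx⟩)
  have h4 : (⟨σ, hD⟩ : A.decompositionSubgroup K) • (IsLocalRing.residue A ⟨x, hx⟩)
      = IsLocalRing.residue A ((⟨σ, hD⟩ : A.decompositionSubgroup K) • ⟨x, hx⟩) := rfl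
  rw [h4, ← map_pow, ← sub_eq_zero, ← map_sub, IsLocalRing.residue_eq_zero_iff] at h3
  exact A.coe_mem_nonunits_iff.mpr h3

/-- roots of unity lie in every valuation subring. -/
theorem mem_of_pow_eq_one (A : ValuationSubring L) {x : L} {m : ℕ} (hm : m ≠ 0)
    (hx : x ^ m = 1) : x ∈ A := by
  rw [← A.valuation_le_one_iff]
  have h1 : A.valuation x ^ m = 1 := by rw [← map_pow, hx, map_one]
  exact (pow_eq_one_iff_of_nonneg zero_le hm).mp h1 |>.le

/-- a root of unity of order prime to the residue characteristic which is `1` modulo the maximal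
ideal is equal to `1`. -/
theorem eq_one_of_sub_one_mem_nonunits {A : ValuationSubring L} {q : ℕ}
    (hA : A.LiesOverPrime q) {m : ℕ} (hqm : m.Coprime q) {x : L} (hx : x ^ m = 1)
    (h1 : x - 1 ∈ A.nonunits) : x = 1 := by
  rcases Nat.eq_zero_or_pos m with rfl | hm
  · -- `q = 1`: impossible
    have hq : q = 1 := by simpa using hqm
    subst hq
    exfalso
    have : (1 : L) ∈ A.nonunits := by
      have := hA; unfold LiesOverPrime at this; simpa using this
    rw [A.mem_nonunits_iff, map_one] at this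
    exact lt_irrefl _ this
  by_contra hne
  have hxA : x ∈ A := mem_of_pow_eq_one A hm.ne' hx
  -- geometric sum vanishes
  have hgeom : ∑ i ∈ Finset.range m, x ^ i = 0 := by
    have := mul_geom_sum x m
    rw [hx, sub_self] at this
    exact (mul_eq_zero.mp this).resolve_left (sub_ne_zero.mpr hne)
  let y : A := ⟨x, hxA⟩
  have hy : IsLocalRing.residue A y = 1 := by
    rw [← sub_eq_zero, ← map_one (IsLocalRing.residue A), ← map_sub,
      IsLocalRing.residue_eq_zero_iff]
    exact A.coe_mem_nonunits_iff.mp h1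
  have hgeom' : ∑ i ∈ Finset.range m, y ^ i = 0 := by
    apply Subtype.ext
    push_cast
    exact hgeom
  have h2 := congrArg (IsLocalRing.residue A) hgeom'
  rw [map_sum, map_zero] at h2
  simp only [map_pow, hy, one_pow, Finset.sum_const, Finset.card_range, nsmul_eq_mul, mul_one] at h2
  -- `m = 0` in the residue field
  have hq0 : (q : IsLocalRing.ResidueField A) = 0 := by
    have h3 : ((q : A) : L) ∈ A.nonunits := by
      have := hA; unfold LiesOverPrime at this; simpa using this
    have h4 := A.coe_mem_nonunits_iff.mp h3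
    rw [← IsLocalRing.residue_eq_zero_iff, map_natCast] at h4
    exact h4
  have hcop := Nat.isCoprime_iff_coprime.mpr hqm
  obtain ⟨a, b, hab⟩ := hcop
  have h5 := congrArg (fun z : ℤ => (z : IsLocalRing.ResidueField A)) hab
  push_cast at h5
  rw [h2, hq0] at h5
  simp at h5

/-- two roots of unity of order prime to `q` congruent modulo the maximal ideal are equal. -/
theorem eq_of_sub_mem_nonunits {A : ValuationSubring L} {q : ℕ}
    (hA : A.LiesOverPrime q) {m : ℕ} (hqm : m.Coprime q) {x y : L} (hx : x ^ m = 1)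
    (hy : y ^ m = 1) (h1 : x - y ∈ A.nonunits) : x = y := by
  rcases Nat.eq_zero_or_pos m with rfl | hm
  · have hq : q = 1 := by simpa using hqm
    subst hq
    exfalso
    have : (1 : L) ∈ A.nonunits := by
      have := hA; unfold LiesOverPrime at this; simpa using this
    rw [A.mem_nonunits_iff, map_one] at this
    exact lt_irrefl _ this
  have hy0 : y ≠ 0 := by
    rintro rfl
    rw [zero_pow hm.ne'] at hy
    exact zero_ne_one hy
  have hv : A.valuation y = 1 := by
    have h1 : A.valuation y ^ m = 1 := by rw [← map_pow, hy, map_one]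
    exact (pow_eq_one_iff_of_nonneg zero_le hm.ne').mp h1
  have h2 : x * y⁻¹ = 1 := by
    refine eq_one_of_sub_one_mem_nonunits hA hqm (x := x * y⁻¹) ?_ ?_
    · rw [mul_pow, inv_pow, hx, hy]; simp
    · have : x * y⁻¹ - 1 = (x - y) * y⁻¹ := by field_simp
      rw [this, A.mem_nonunits_iff, map_mul, map_inv₀, hv, inv_one, mul_one]
      exact A.mem_nonunits_iff.mp h1
  field_simp at h2
  exact h2

/-- (C1) inertia acts trivially on roots of unity of order prime to the residue characteristic. -/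
theorem inertia_apply_eq {A : ValuationSubring L} {q : ℕ} (hA : A.LiesOverPrime q) {m : ℕ}
    (hqm : m.Coprime q) {σ : L ≃ₐ[K] L} (hσ : σ ∈ A.inertiaSubgroupIn K) {ζ : L}
    (hζ : ζ ^ m = 1) : σ ζ = ζ := by
  rcases Nat.eq_zero_or_pos m with rfl | hm
  · have hq : q = 1 := by simpa using hqm
    subst hq
    exfalso
    have : (1 : L) ∈ A.nonunits := by
      have := hA; unfold LiesOverPrime at this; simpa using this
    rw [A.mem_nonunits_iff, map_one] at this
    exact lt_irrefl _ this
  exact eq_of_sub_mem_nonunits hA hqm (by rw [← map_pow, hζ, map_one]) hζ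
    (sub_mem_nonunits_of_mem_inertia hσ (mem_of_pow_eq_one A hm.ne' hζ))

/-- (C2) a Frobenius element at `q` raises roots of unity of order prime to `q` to the power `q`. -/
theorem frobenius_apply_eq {A : ValuationSubring L} {q : ℕ} (hA : A.LiesOverPrime q) {m : ℕ}
    (hqm : m.Coprime q) {σ : L ≃ₐ[K] L} (hσ : A.IsFrobeniusAt σ q) {ζ : L}
    (hζ : ζ ^ m = 1) : σ ζ = ζ ^ q := by
  rcases Nat.eq_zero_or_pos m with rfl | hm
  · have hq : q = 1 := by simpa using hqm
    subst hq
    exfalso
    have : (1 : L) ∈ A.nonunits := by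
      have := hA; unfold LiesOverPrime at this; simpa using this
    rw [A.mem_nonunits_iff, map_one] at this
    exact lt_irrefl _ this
  exact eq_of_sub_mem_nonunits hA hqm (by rw [← map_pow, hζ, map_one])
    (by rw [← pow_mul, mul_comm, pow_mul, hζ, one_pow])
    (sub_pow_mem_nonunits_of_isFrobeniusAt hσ (mem_of_pow_eq_one A hm.ne' hζ))

end General

section Char

variable (p : ℕ) [Fact p.Prime]

/-- characterization of the mod `p` cyclotomic character: if `σ ζ = ζ ^ a` on `p`-th roots of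
unity, then `cycloChar p σ = a`. -/
theorem cycloChar_eq_of_forall {σ : AlgebraicClosure ℚ ≃ₐ[ℚ] AlgebraicClosure ℚ} {a : ℕ}
    (h : ∀ ζ : AlgebraicClosure ℚ, ζ ^ p = 1 → σ ζ = ζ ^ a) :
    ((ExtCitation.cycloChar p σ : (ZMod p)ˣ) : ZMod p) = (a : ZMod p) := by
  have : NeZero p := ⟨(Fact.out : p.Prime).ne_zero⟩
  have h1 := modularCyclotomicCharacter.unique (AlgebraicClosure ℚ)
    (ExtCitation.card_rootsOfUnity_eq_self p)
    (σ : AlgebraicClosure ℚ ≃+* AlgebraicClosure ℚ) (c := (a : ZMod p)) (by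
      intro t ht
      have h2 : (t : AlgebraicClosure ℚ) ^ p = 1 := by
        have := (mem_rootsOfUnity p t).mp ht
        have h3 := congrArg (fun u : (AlgebraicClosure ℚ)ˣ => (u : AlgebraicClosure ℚ)) this
        simpa using h3
      have h4 := h _ h2
      rw [ZMod.val_natCast]
      have h5 : (t : AlgebraicClosure ℚ) ^ a = (t : AlgebraicClosure ℚ) ^ (a % p) := by
        conv_lhs => rw [← Nat.div_add_mod a p]
        rw [pow_add, pow_mul, h2, one_pow, one_mul]
      rw [← h5, ← h4]
      rfl)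
  exact h1.symm

/-- the cyclotomic character describes the action on `p`-th roots of unity. -/
theorem apply_eq_pow_cycloChar (σ : AlgebraicClosure ℚ ≃ₐ[ℚ] AlgebraicClosure ℚ)
    {ζ : AlgebraicClosure ℚ} (hζ : ζ ^ p = 1) :
    σ ζ = ζ ^ ((ExtCitation.cycloChar p σ : (ZMod p)ˣ) : ZMod p).val := by
  have : NeZero p := ⟨(Fact.out : p.Prime).ne_zero⟩
  have h0 : ζ ≠ 0 := by
    rintro rfl
    rw [zero_pow (Fact.out : p.Prime).ne_zero] at hζ
    exact zero_ne_one hζ
  have h1 := modularCyclotomicCharacter.spec (AlgebraicClosure ℚ)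
    (ExtCitation.card_rootsOfUnity_eq_self p)
    (σ : AlgebraicClosure ℚ ≃+* AlgebraicClosure ℚ) (t := Units.mk0 ζ h0) (by
      rw [mem_rootsOfUnity]; ext; simpa using hζ)
  exact h1

/-- (C3) Frobenius at `ℓ ≠ p`. -/
theorem cycloChar_frobenius {ℓ : ℕ} (hℓ : ℓ.Prime) (hℓp : ℓ ≠ p)
    {A : ValuationSubring (AlgebraicClosure ℚ)} (hA : A.LiesOverPrime ℓ)
    {σ : AlgebraicClosure ℚ ≃ₐ[ℚ] AlgebraicClosure ℚ} (hσ : A.IsFrobeniusAt σ ℓ) :
    ((ExtCitation.cycloChar p σ : (ZMod p)ˣ) : ZMod p) = (ℓ : ZMod p) :=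
  cycloChar_eq_of_forall p fun _ hζ => frobenius_apply_eq hA
    ((Nat.coprime_primes Fact.out hℓ).mpr (Ne.symm hℓp)) hσ hζ

/-- (C3) inertia at `ℓ ≠ p`. -/
theorem cycloChar_inertia {ℓ : ℕ} (hℓ : ℓ.Prime) (hℓp : ℓ ≠ p)
    {A : ValuationSubring (AlgebraicClosure ℚ)} (hA : A.LiesOverPrime ℓ)
    {σ : AlgebraicClosure ℚ ≃ₐ[ℚ] AlgebraicClosure ℚ} (hσ : σ ∈ A.inertiaSubgroupIn ℚ) :
    ExtCitation.cycloChar p σ = 1 := by
  ext
  rw [cycloChar_eq_of_forall p (a := 1) fun ζ hζ => by
    rw [pow_one]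
    exact inertia_apply_eq hA ((Nat.coprime_primes Fact.out hℓ).mpr (Ne.symm hℓp)) hσ hζ]
  simp

end Char

section Level

/-- (C4) a finite level for the action on `m`-th roots of unity. -/
theorem exists_finite_level_rootsOfUnity {m : ℕ} (hm : m ≠ 0) :
    ∃ L : IntermediateField ℚ (AlgebraicClosure ℚ), FiniteDimensional ℚ L ∧
      ∀ ζ : AlgebraicClosure ℚ, ζ ^ m = 1 → ζ ∈ L := by
  classical
  let s : Finset (AlgebraicClosure ℚ) := (Polynomial.nthRoots m (1 : AlgebraicClosure ℚ)).toFinset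
  refine ⟨IntermediateField.adjoin ℚ (s : Set (AlgebraicClosure ℚ)), ?_, ?_⟩
  · refine IntermediateField.finiteDimensional_adjoin fun x _ => ?_
    have : Algebra.IsAlgebraic ℚ (AlgebraicClosure ℚ) := AlgebraicClosure.isAlgebraic ℚ
    exact (Algebra.IsAlgebraic.isAlgebraic (R := ℚ) x).isIntegral
  · intro ζ hζ
    apply IntermediateField.subset_adjoin
    simp only [s, Finset.mem_coe, Multiset.mem_toFinset]
    rw [Polynomial.mem_nthRoots (Nat.pos_of_ne_zero hm)]
    exact hζ

/-- finite level for the mod `p` cyclotomic character. -/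
theorem exists_finite_level_cycloChar (p : ℕ) [Fact p.Prime] :
    ∃ L : IntermediateField ℚ (AlgebraicClosure ℚ), FiniteDimensional ℚ L ∧
      ∀ σ : AlgebraicClosure ℚ ≃ₐ[ℚ] AlgebraicClosure ℚ, (∀ x ∈ L, σ x = x) →
        ExtCitation.cycloChar p σ = 1 := by
  obtain ⟨L, hL, h⟩ := exists_finite_level_rootsOfUnity (Fact.out : p.Prime).ne_zero
  refine ⟨L, hL, fun σ hσ => ?_⟩
  ext
  rw [cycloChar_eq_of_forall p (a := 1) fun ζ hζ => by rw [pow_one]; exact hσ ζ (h ζ hζ)]
  simp

end Level

end Fermat.Agent.CycChar
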